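import Mathlib

/-!
# S52 / IRR / K3 + K4 (helper9243): from "every member `s = M p^k` has an integer root" to a
polynomial root.

Integer form.  `quart a b y = y^4 + 6 a y^2 + 8 b y - 3 a^2` (one third of the 3-division polynomial of
`y^2 = x^3 + 3 a x + 2 b`).  For `a b : ℤ[X]` (the family), a prime `p`, `M ≠ 0`, a finite set `R` of
simple integer roots of the member `s = 0` which is `p`-adically isolating (`hLI`), if every member
`s = M p^k` has an integer root then the family has a polynomial root (after clearing a denominator `d`).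
-/

set_option autoImplicit false

namespace Fermat.Agent.S52.IRR.K4h9243

open Polynomial

section Defs

variable {S : Type*} [CommRing S]

/-- `y^4 + 6 a y^2 + 8 b y - 3 a^2`. -/
def quart (a b y : S) : S := y ^ 4 + 6 * a * y ^ 2 + 8 * b * y - 3 * a ^ 2

/-- homogenised quartic: `quartH a b d (d y) = d^4 quart a b y`. -/
def quartH (a b d z : S) : S := z ^ 4 + 6 * a * d ^ 2 * z ^ 2 + 8 * b * d ^ 3 * z - 3 * a ^ 2 * d ^ 4

/-- derivative of `quartH` in `z`. -/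
def quartD (a b d z : S) : S := 4 * z ^ 3 + 12 * a * d ^ 2 * z + 8 * b * d ^ 3

/-- difference quotient of `quartH` in `z`. -/
def quartT (a b d z w : S) : S :=
  z ^ 3 + z ^ 2 * w + z * w ^ 2 + w ^ 3 + 6 * a * d ^ 2 * (z + w) + 8 * b * d ^ 3

lemma quartH_mul (a b d y : S) : quartH a b d (d * y) = d ^ 4 * quart a b y := by
  unfold quartH quart; ring

lemma quartH_add (a b d z h : S) :
    quartH a b d (z + h) = quartH a b d z + h * quartD a b d z
      + h ^ 2 * (6 * z ^ 2 + 4 * z * h + h ^ 2 + 6 * a * d ^ 2) := by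
  unfold quartH quartD; ring

lemma quartH_scale (a b d e z : S) : quartH a b (d * e) (e * z) = e ^ 4 * quartH a b d z := by
  unfold quartH; ring

lemma quartD_scale (a b d e z : S) : quartD a b (d * e) (e * z) = e ^ 3 * quartD a b d z := by
  unfold quartD; ring

lemma quartH_sub (a b d z w : S) :
    quartH a b d z - quartH a b d w = (z - w) * quartT a b d z w := by
  unfold quartH quartT; ring

lemma quartT_self (a b d r : S) :
    quartT a b d (d * r) (d * r) = d ^ 3 * (4 * (r ^ 3 + 3 * a * r + 2 * b)) := by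
  unfold quartT; ring

lemma quartD_self (a b d r : S) :
    quartD a b d (d * r) = d ^ 3 * (4 * (r ^ 3 + 3 * a * r + 2 * b)) := by
  unfold quartD; ring

lemma eval_quartH (A B : S[X]) (d : S) (P : S[X]) (s : S) :
    (quartH A B (C d) P).eval s = quartH (A.eval s) (B.eval s) d (P.eval s) := by
  simp [quartH]

lemma eval_quartD (A B : S[X]) (d : S) (P : S[X]) (s : S) :
    (quartD A B (C d) P).eval s = quartD (A.eval s) (B.eval s) d (P.eval s) := by
  simp [quartD]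

end Defs

/-! ### K3: Newton polynomial (integer form) -/

theorem newton (a b : ℤ[X]) (r : ℤ) (hr : quart (a.eval 0) (b.eval 0) r = 0)
    (hδ : r ^ 3 + 3 * a.eval 0 * r + 2 * b.eval 0 ≠ 0) (N : ℕ) :
    ∃ d : ℤ, d ≠ 0 ∧ ∃ P : ℤ[X], P.natDegree ≤ N ∧ P.eval 0 = d * r ∧
      (X : ℤ[X]) ^ (N + 1) ∣ quartH a b (C d) P := by
  induction N with
  | zero =>
    refine ⟨1, one_ne_zero, C r, by simp, by simp, ?_⟩
    rw [zero_add, pow_one, X_dvd_iff, coeff_zero_eq_eval_zero, eval_quartH]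
    simp only [eval_C]
    have := quartH_mul (a.eval 0) (b.eval 0) 1 r
    rw [one_mul] at this
    rw [this, hr]; ring
  | succ N ih =>
    obtain ⟨d, hd, P, hdeg, h0, U, hU⟩ := ih
    set e : ℤ := d ^ 3 * (4 * (r ^ 3 + 3 * a.eval 0 * r + 2 * b.eval 0)) with he
    have he0 : e ≠ 0 := mul_ne_zero (pow_ne_zero 3 hd) (mul_ne_zero (by norm_num) hδ)
    set u : ℤ := U.eval 0 with hu
    refine ⟨d * e, mul_ne_zero hd he0, C e * P - C u * X ^ (N + 1), ?_, ?_, ?_⟩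
    · refine (natDegree_sub_le _ _).trans (max_le ?_ ?_)
      · exact (natDegree_C_mul_le _ _).trans (hdeg.trans (Nat.le_succ N))
      · exact natDegree_C_mul_X_pow_le _ _
    · simp [h0]; ring
    · have hX : (X : ℤ[X]) ∣ C e * U - C u * quartD a b (C d) P := by
        rw [X_dvd_iff, coeff_zero_eq_eval_zero]
        simp only [eval_sub, eval_mul, eval_C, eval_quartD, h0, quartD_self]
        rw [← hu, ← he]; ring
      obtain ⟨V, hV⟩ := hX
      have key : quartH a b (C (d * e)) (C e * P - C u * X ^ (N + 1))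
          = X ^ (N + 1 + 1) * (C e ^ 3 * V
            + X ^ N * (C u ^ 2 * (6 * (C e * P) ^ 2 + 4 * (C e * P) * (-(C u * X ^ (N + 1)))
              + (-(C u * X ^ (N + 1))) ^ 2 + 6 * a * (C (d * e)) ^ 2))) := by
        have h1 := quartH_add a b (C (d * e)) (C e * P) (-(C u * X ^ (N + 1)))
        rw [← sub_eq_add_neg] at h1
        rw [h1, C_mul, quartH_scale, quartD_scale, hU]
        linear_combination (C e ^ 3 * X ^ (N + 1)) * hV
      rw [key]
      exact dvd_mul_right _ _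

/-! ### size bounds -/

lemma poly_bound (g : ℤ[X]) : ∃ C : ℤ, 0 ≤ C ∧ ∀ s : ℤ, s ≠ 0 → |g.eval s| ≤ C * |s| ^ g.natDegree := by
  refine ⟨∑ i ∈ Finset.range (g.natDegree + 1), |g.coeff i|,
    Finset.sum_nonneg fun _ _ => abs_nonneg _, fun s hs => ?_⟩
  have hs1 : (1 : ℤ) ≤ |s| := Int.one_le_abs hs
  rw [eval_eq_sum_range, Finset.sum_mul]
  refine (Finset.abs_sum_le_sum_abs _ _).trans (Finset.sum_le_sum fun i hi => ?_)
  rw [abs_mul, abs_pow]
  have hi' : i ≤ g.natDegree := Nat.lt_succ_iff.mp (Finset.mem_range.mp hi)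
  exact mul_le_mul_of_nonneg_left (pow_le_pow_right₀ hs1 hi') (abs_nonneg _)

lemma root_bound (A B y : ℤ) (h : quart A B y = 0) : |y| ≤ 1 + 6 * |A| + 8 * |B| + 3 * A ^ 2 := by
  by_contra hcon
  push Not at hcon
  have hA := abs_nonneg A
  have hB := abs_nonneg B
  have hA2 : 0 ≤ A ^ 2 := sq_nonneg A
  set t := |y| with ht
  have ht1 : 1 ≤ t := by linarith
  have h4 : t ^ 4 = |6 * A * y ^ 2 + 8 * B * y - 3 * A ^ 2| := by
    have : y ^ 4 = -(6 * A * y ^ 2 + 8 * B * y - 3 * A ^ 2) := by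
      unfold quart at h; linarith
    rw [ht, ← abs_pow, this, abs_neg]
  have h5 : |6 * A * y ^ 2 + 8 * B * y - 3 * A ^ 2| ≤ 6 * |A| * t ^ 2 + 8 * |B| * t + 3 * A ^ 2 := by
    calc |6 * A * y ^ 2 + 8 * B * y - 3 * A ^ 2|
        ≤ |6 * A * y ^ 2 + 8 * B * y| + |3 * A ^ 2| := abs_sub _ _
      _ ≤ |6 * A * y ^ 2| + |8 * B * y| + |3 * A ^ 2| := by gcongr; exact abs_add_le _ _
      _ = 6 * |A| * t ^ 2 + 8 * |B| * t + 3 * A ^ 2 := by
          rw [abs_mul, abs_mul, abs_mul, abs_mul, abs_mul, abs_pow, abs_pow, sq_abs A, ← ht]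
          norm_num
  have ht2 : t ^ 2 ≤ t ^ 3 := pow_le_pow_right₀ ht1 (by norm_num)
  have ht3 : t ≤ t ^ 3 := by
    calc t = t ^ 1 := (pow_one t).symm
      _ ≤ t ^ 3 := pow_le_pow_right₀ ht1 (by norm_num)
  have ht3' : 1 ≤ t ^ 3 := one_le_pow₀ ht1
  have h6 : 6 * |A| * t ^ 2 + 8 * |B| * t + 3 * A ^ 2 ≤ (6 * |A| + 8 * |B| + 3 * A ^ 2) * t ^ 3 := by
    nlinarith [mul_le_mul_of_nonneg_left ht2 (by positivity : (0:ℤ) ≤ 6 * |A|),
      mul_le_mul_of_nonneg_left ht3 (by positivity : (0:ℤ) ≤ 8 * |B|),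
      mul_le_mul_of_nonneg_left ht3' (by positivity : (0:ℤ) ≤ 3 * A ^ 2)]
  have h7 : (6 * |A| + 8 * |B| + 3 * A ^ 2) * t ^ 3 < t * t ^ 3 := by
    apply mul_lt_mul_of_pos_right _ (by positivity)
    linarith
  have : t ^ 4 = t * t ^ 3 := by ring
  linarith

lemma family_root_bound (a b : ℤ[X]) : ∃ (CB : ℤ) (E : ℕ), 0 ≤ CB ∧ ∀ s y : ℤ, s ≠ 0 →
    quart (a.eval s) (b.eval s) y = 0 → |y| ≤ CB * |s| ^ E := by
  obtain ⟨Ca, hCa, ha⟩ := poly_bound a
  obtain ⟨Cb, hCb, hb⟩ := poly_bound b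
  refine ⟨1 + 6 * Ca + 8 * Cb + 3 * Ca ^ 2, 2 * a.natDegree + b.natDegree, by positivity,
    fun s y hs h => ?_⟩
  have hs1 : (1 : ℤ) ≤ |s| := Int.one_le_abs hs
  have h1 := root_bound _ _ y h
  have hA := ha s hs
  have hB := hb s hs
  set E := 2 * a.natDegree + b.natDegree with hE
  have e0 : (1 : ℤ) ≤ |s| ^ E := one_le_pow₀ hs1
  have e1 : |s| ^ a.natDegree ≤ |s| ^ E := pow_le_pow_right₀ hs1 (by omega)
  have e2 : |s| ^ b.natDegree ≤ |s| ^ E := pow_le_pow_right₀ hs1 (by omega)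
  have e3 : (|s| ^ a.natDegree) ^ 2 ≤ |s| ^ E := by
    rw [← pow_mul]; exact pow_le_pow_right₀ hs1 (by omega)
  have hA2 : (a.eval s) ^ 2 ≤ Ca ^ 2 * (|s| ^ a.natDegree) ^ 2 := by
    rw [← mul_pow, ← sq_abs (a.eval s)]
    exact pow_le_pow_left₀ (abs_nonneg _) hA 2
  have hp : (0 : ℤ) ≤ |s| ^ a.natDegree := by positivity
  have hq : (0 : ℤ) ≤ |s| ^ b.natDegree := by positivity
  nlinarith [mul_le_mul_of_nonneg_left e1 hCa, mul_le_mul_of_nonneg_left e2 hCb,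
    mul_le_mul_of_nonneg_left e3 (sq_nonneg Ca)]

/-! ### K4: the main argument -/

lemma size_dvd_aux (p : ℕ) (hp : p.Prime) (x t : ℤ) (m n : ℕ) (hx : x ≠ 0)
    (hdvd : (p : ℤ) ^ m ∣ x * t) (hnd : ¬ (p : ℤ) ^ n ∣ t) : (p : ℤ) ^ m ≤ |x| * (p : ℤ) ^ n := by
  have hpZ : Prime (p : ℤ) := Nat.prime_iff_prime_int.mp hp
  have hp0 : (0 : ℤ) < p := by exact_mod_cast hp.pos
  have ht : t ≠ 0 := fun h => hnd (h ▸ dvd_zero _)
  have hfin : FiniteMultiplicity (p : ℤ) t := by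
    rw [Int.finiteMultiplicity_iff]
    exact ⟨by simpa using hp.ne_one, ht⟩
  obtain ⟨c, hc, hpc⟩ := hfin.exists_eq_pow_mul_and_not_dvd
  set j := multiplicity (p : ℤ) t with hj
  have hjn : j < n := by
    by_contra hcon
    push Not at hcon
    exact hnd ((pow_dvd_pow _ hcon).trans (Dvd.intro _ hc.symm))
  have h1 : (p : ℤ) ^ m ∣ (x * (p : ℤ) ^ j) * c := by
    have : x * t = (x * (p : ℤ) ^ j) * c := by rw [hc]; ring
    rwa [this] at hdvd
  have h2 : (p : ℤ) ^ m ∣ x * (p : ℤ) ^ j := hpZ.pow_dvd_of_dvd_mul_right m hpc h1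
  have h3 : x * (p : ℤ) ^ j ≠ 0 := mul_ne_zero hx (pow_ne_zero _ hp0.ne')
  have h4 : (p : ℤ) ^ m ≤ |x * (p : ℤ) ^ j| := Int.le_of_dvd (abs_pos.mpr h3) ((dvd_abs _ _).mpr h2)
  rw [abs_mul, abs_of_pos (pow_pos hp0 j)] at h4
  have h5 : (p : ℤ) ^ j ≤ (p : ℤ) ^ n := pow_le_pow_right₀ (by omega) hjn.le
  exact h4.trans (mul_le_mul_of_nonneg_left h5 (abs_nonneg x))

/-- **K3 + K4.**  If the member `s = 0` of the family `quart (a s) (b s)` has a finite set `R` of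
simple integer roots which is `p`-adically isolating, and every member `s = M p^k` has an integer
root, then the family has a polynomial root: `quartH a b (C d) P = 0` in `ℤ[X]`, `d ≠ 0`
(i.e. `P / d` is a root of the quartic over `ℚ[X]`). -/
theorem exists_poly_root (a b : ℤ[X]) (p : ℕ) (hp : p.Prime) (M : ℤ) (hM : M ≠ 0) (R : Finset ℤ)
    (hR : ∀ r ∈ R, quart (a.eval 0) (b.eval 0) r = 0)
    (hsimple : ∀ r ∈ R, r ^ 3 + 3 * a.eval 0 * r + 2 * b.eval 0 ≠ 0)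
    (hLI : ∀ n : ℕ, ∃ m : ℕ, ∀ y : ℤ, (p : ℤ) ^ m ∣ quart (a.eval 0) (b.eval 0) y →
      ∃ r ∈ R, (p : ℤ) ^ n ∣ y - r)
    (hH : ∀ k : ℕ, ∃ y : ℤ, quart (a.eval (M * (p : ℤ) ^ k)) (b.eval (M * (p : ℤ) ^ k)) y = 0) :
    ∃ d : ℤ, d ≠ 0 ∧ ∃ P : ℤ[X], quartH a b (C d) P = 0 := by
  have hp0 : (0 : ℤ) < p := by exact_mod_cast hp.pos
  obtain ⟨CB, E, hCB, hbound⟩ := family_root_bound a b
  -- Newton data
  have hN : ∀ r : ℤ, r ∈ R → ∃ d : ℤ, d ≠ 0 ∧ ∃ P : ℤ[X], P.natDegree ≤ E ∧ P.eval 0 = d * r ∧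
      ∃ U : ℤ[X], quartH a b (C d) P = X ^ (E + 1) * U := fun r hr => by
    obtain ⟨d, hd, P, h1, h2, U, hU⟩ := newton a b r (hR r hr) (hsimple r hr) E
    exact ⟨d, hd, P, h1, h2, U, hU⟩
  choose! d hd P hPdeg hP0 U hU using hN
  have hPB : ∀ r : ℤ, ∃ C : ℤ, 0 ≤ C ∧ ∀ s : ℤ, s ≠ 0 →
      |(P r).eval s| ≤ C * |s| ^ (P r).natDegree := fun r => poly_bound (P r)
  choose CP hCP0 hCP using hPB
  -- the derivative constants and the precision `n0`
  let δ : ℤ → ℤ := fun r => d r ^ 3 * (4 * (r ^ 3 + 3 * a.eval 0 * r + 2 * b.eval 0))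
  have hδ0 : ∀ r ∈ R, δ r ≠ 0 := fun r hr =>
    mul_ne_zero (pow_ne_zero 3 (hd r hr)) (mul_ne_zero (by norm_num) (hsimple r hr))
  let n0 : ℕ := ∑ r ∈ R, (δ r).natAbs
  have hn0' : ∀ r ∈ R, ¬ (p : ℤ) ^ n0 ∣ δ r := by
    intro r hr hdvd
    have h1 : (δ r).natAbs ≤ n0 :=
      Finset.single_le_sum (f := fun r => (δ r).natAbs) (fun _ _ => Nat.zero_le _) hr
    have h2 : n0 < p ^ n0 := Nat.lt_pow_self hp.one_lt
    have h3 : p ^ n0 ∣ (δ r).natAbs := by
      have := Int.natAbs_dvd_natAbs.mpr hdvd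
      simpa [Int.natAbs_pow] using this
    have h4 := Nat.le_of_dvd (Int.natAbs_pos.mpr (hδ0 r hr)) h3
    omega
  obtain ⟨m0, hm0⟩ := hLI n0
  let Ctot : ℤ := ∑ r ∈ R, (|d r| * CB + CP r)
  have hterm0 : ∀ r ∈ R, 0 ≤ |d r| * CB + CP r := fun r _ =>
    add_nonneg (mul_nonneg (abs_nonneg _) hCB) (hCP0 r)
  let Bnd : ℤ := Ctot * |M| ^ E * (p : ℤ) ^ n0
  let K0 : ℕ := max (max n0 m0) Bnd.toNat
  have main : ∀ k : ℕ, K0 ≤ k → ∃ r ∈ R, (U r).eval (M * (p : ℤ) ^ k) = 0 := by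
    intro k hk
    have hkn0 : n0 ≤ k := le_trans (le_trans (le_max_left _ _) (le_max_left _ _)) hk
    have hkm0 : m0 ≤ k := le_trans (le_trans (le_max_right _ _) (le_max_left _ _)) hk
    have hkB : Bnd.toNat ≤ k := le_trans (le_max_right _ _) hk
    obtain ⟨y, hy⟩ := hH k
    set s : ℤ := M * (p : ℤ) ^ k with hs
    have hs0 : s ≠ 0 := mul_ne_zero hM (pow_ne_zero _ hp0.ne')
    have hpk : (p : ℤ) ^ k ∣ s := Dvd.intro_left _ rfl
    obtain ⟨α, hα⟩ : s ∣ a.eval s - a.eval 0 := by simpa using Polynomial.sub_dvd_eval_sub s 0 a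
    obtain ⟨β, hβ⟩ : s ∣ b.eval s - b.eval 0 := by simpa using Polynomial.sub_dvd_eval_sub s 0 b
    have hq0 : s ∣ quart (a.eval 0) (b.eval 0) y := by
      refine ⟨-(6 * α * y ^ 2 + 8 * β * y - 3 * α * (a.eval s + a.eval 0)), ?_⟩
      unfold quart at hy ⊢
      linear_combination hy + (-6 * y ^ 2 + 3 * (a.eval s + a.eval 0)) * hα + (-8 * y) * hβ
    have hpk0 : (p : ℤ) ^ m0 ∣ quart (a.eval 0) (b.eval 0) y :=
      (pow_dvd_pow _ hkm0).trans (hpk.trans hq0)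
    obtain ⟨r, hrR, hyr⟩ := hm0 y hpk0
    refine ⟨r, hrR, ?_⟩
    set z1 : ℤ := d r * y with hz1
    set z2 : ℤ := (P r).eval s with hz2
    have hH1 : quartH (a.eval s) (b.eval s) (d r) z1 = 0 := by
      rw [hz1, quartH_mul, hy, mul_zero]
    have hH2 : quartH (a.eval s) (b.eval s) (d r) z2 = s ^ (E + 1) * (U r).eval s := by
      rw [hz2, ← eval_quartH, hU r hrR]; simp
    by_contra hUne
    have hne : z1 ≠ z2 := by
      intro h
      rw [h, hH2] at hH1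
      rcases mul_eq_zero.mp hH1 with h' | h'
      · exact hs0 (pow_eq_zero_iff (Nat.succ_ne_zero E) |>.mp h')
      · exact hUne h'
    set Θ : ℤ := quartT (a.eval s) (b.eval s) (d r) z1 z2 with hΘ
    have hprod : (z1 - z2) * Θ = -(s ^ (E + 1) * (U r).eval s) := by
      rw [hΘ, ← quartH_sub, hH1, hH2]; ring
    have hpn : (p : ℤ) ^ n0 ∣ s := (pow_dvd_pow _ hkn0).trans hpk
    have c1 : z1 ≡ d r * r [ZMOD (p : ℤ) ^ n0] := by
      apply Int.ModEq.symm
      rw [Int.modEq_iff_dvd]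
      have : z1 - d r * r = d r * (y - r) := by rw [hz1]; ring
      rw [this]
      exact Dvd.dvd.mul_left hyr _
    have c2 : z2 ≡ d r * r [ZMOD (p : ℤ) ^ n0] := by
      have h1 : s ∣ z2 - d r * r := by
        have := Polynomial.sub_dvd_eval_sub s 0 (P r)
        rw [hP0 r hrR] at this
        simpa using this
      apply Int.ModEq.symm
      rw [Int.modEq_iff_dvd]
      exact hpn.trans h1
    have c3 : a.eval s ≡ a.eval 0 [ZMOD (p : ℤ) ^ n0] := by
      apply Int.ModEq.symm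
      rw [Int.modEq_iff_dvd]
      exact hpn.trans ⟨α, hα⟩
    have c4 : b.eval s ≡ b.eval 0 [ZMOD (p : ℤ) ^ n0] := by
      apply Int.ModEq.symm
      rw [Int.modEq_iff_dvd]
      exact hpn.trans ⟨β, hβ⟩
    have cΘ : Θ ≡ δ r [ZMOD (p : ℤ) ^ n0] := by
      have h := quartT_self (a.eval 0) (b.eval 0) (d r) r
      show Θ ≡ d r ^ 3 * (4 * (r ^ 3 + 3 * a.eval 0 * r + 2 * b.eval 0)) [ZMOD (p : ℤ) ^ n0]
      rw [← h, hΘ]
      unfold quartT
      gcongr
    have hΘnd : ¬ (p : ℤ) ^ n0 ∣ Θ := by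
      intro h
      apply hn0' r hrR
      have h1 : (p : ℤ) ^ n0 ∣ δ r - Θ := cΘ.dvd
      have := dvd_add h1 h
      simpa using this
    have hdvd : (p : ℤ) ^ (k * (E + 1)) ∣ (z1 - z2) * Θ := by
      rw [hprod, dvd_neg]
      apply Dvd.dvd.mul_right
      rw [hs, mul_pow, ← pow_mul]
      exact Dvd.intro_left _ rfl
    have hsize := size_dvd_aux p hp (z1 - z2) Θ (k * (E + 1)) n0 (sub_ne_zero.mpr hne) hdvd hΘnd
    have hs1 : (1 : ℤ) ≤ |s| := Int.one_le_abs hs0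
    have habs : |z1 - z2| ≤ Ctot * |s| ^ E := by
      have h1 : |z1| ≤ |d r| * (CB * |s| ^ E) := by
        rw [hz1, abs_mul]
        exact mul_le_mul_of_nonneg_left (hbound s y hs0 hy) (abs_nonneg _)
      have h2 : |z2| ≤ CP r * |s| ^ E := by
        refine (hCP r s hs0).trans ?_
        exact mul_le_mul_of_nonneg_left (pow_le_pow_right₀ hs1 (hPdeg r hrR)) (hCP0 r)
      have h3 : |d r| * CB + CP r ≤ Ctot :=
        Finset.single_le_sum (f := fun r => |d r| * CB + CP r) hterm0 hrR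
      have h4 : (0 : ℤ) ≤ |s| ^ E := by positivity
      calc |z1 - z2| ≤ |z1| + |z2| := abs_sub _ _
        _ ≤ |d r| * (CB * |s| ^ E) + CP r * |s| ^ E := add_le_add h1 h2
        _ = (|d r| * CB + CP r) * |s| ^ E := by ring
        _ ≤ Ctot * |s| ^ E := mul_le_mul_of_nonneg_right h3 h4
    have hsE : |s| ^ E = |M| ^ E * (p : ℤ) ^ (k * E) := by
      rw [hs, abs_mul, mul_pow, abs_of_pos (pow_pos hp0 k), ← pow_mul]
    have h5 : (p : ℤ) ^ (k * E) * (p : ℤ) ^ k ≤ Bnd * (p : ℤ) ^ (k * E) := by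
      calc (p : ℤ) ^ (k * E) * (p : ℤ) ^ k = (p : ℤ) ^ (k * (E + 1)) := by rw [← pow_add]; ring_nf
        _ ≤ |z1 - z2| * (p : ℤ) ^ n0 := hsize
        _ ≤ Ctot * |s| ^ E * (p : ℤ) ^ n0 := mul_le_mul_of_nonneg_right habs (by positivity)
        _ = Bnd * (p : ℤ) ^ (k * E) := by rw [hsE]; ring
    have h6 : (p : ℤ) ^ k ≤ Bnd := by
      have hpos : (0 : ℤ) < (p : ℤ) ^ (k * E) := pow_pos hp0 _
      rw [mul_comm] at h5
      exact le_of_mul_le_mul_right h5 hpos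
    have h7 : (k : ℤ) < (p : ℤ) ^ k := by exact_mod_cast Nat.lt_pow_self hp.one_lt
    have h8 : Bnd ≤ (k : ℤ) := by
      have := Int.self_le_toNat Bnd
      have h9 : (Bnd.toNat : ℤ) ≤ (k : ℤ) := by exact_mod_cast hkB
      linarith
    linarith
  -- conclusion
  have hex : ∃ r ∈ R, U r = 0 := by
    by_contra hcon
    push Not at hcon
    let S : Finset ℤ := R.biUnion fun r => (U r).roots.toFinset
    let f : ℕ → ℤ := fun k => M * (p : ℤ) ^ (K0 + k)
    have hinj : Function.Injective f := by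
      intro k k' h
      have h1 : (p : ℤ) ^ (K0 + k) = (p : ℤ) ^ (K0 + k') := mul_left_cancel₀ hM h
      have h2 : (1 : ℤ) < p := by exact_mod_cast hp.one_lt
      have := pow_right_injective₀ hp0 h2.ne' h1
      omega
    have hmem : ∀ k, f k ∈ (S : Set ℤ) := by
      intro k
      obtain ⟨r, hrR, hr0⟩ := main (K0 + k) (Nat.le_add_right _ _)
      simp only [S, Finset.coe_biUnion, Set.mem_iUnion, Finset.mem_coe, Multiset.mem_toFinset]
      exact ⟨r, hrR, (mem_roots (hcon r hrR)).mpr hr0⟩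
    exact (Set.infinite_of_injective_forall_mem hinj hmem).not_finite S.finite_toSet
  obtain ⟨r, hrR, hr0⟩ := hex
  exact ⟨d r, hd r hrR, P r, by rw [hU r hrR, hr0, mul_zero]⟩

end Fermat.Agent.S52.IRR.K4h9243
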