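import Mathlib
import Fermat.Agent.S52.Defs

/-!
# S52 / IRR : the switched family has no polynomial 3-torsion root (blueprint K5)

For `H0 T0` in a field `F` of characteristic zero with `H0^3 + T0^2 ≠ 0`, there is no polynomial
`Y ∈ F[s]` with `ψ₃(E_s)(Y(s)) = 0` identically, where
`E_s : y^2 = x^3 + 27 rsA(H0,T0,s) x + 54 rsB(H0,T0,s)`.

The interface facts of package ALG that are used (`kf_spec`, `rs_disc`, `exists_klein_param`) enter as
explicit hypotheses, so this file is sorry-free and independent of the other packages.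
-/

set_option autoImplicit false

open Polynomial

namespace Fermat.Agent.S52.IRR.NPR8835

/-- Valuation bookkeeping: if a prime `π` divides `G` and `D` and `G^3 - k D^2 = c Φ^5` with
`π ∤ k`, `π ∤ c`, then `π^2 ∣ Φ`. -/
theorem sq_dvd_of_common_prime {R : Type*} [CommRing R] [IsDomain R] {π Φ G D c k : R}
    (hπ : Prime π) (hk : ¬ π ∣ k) (hc : ¬ π ∣ c) (hG : π ∣ G) (hD : π ∣ D)
    (h : G ^ 3 - k * D ^ 2 = c * Φ ^ 5) : π ^ 2 ∣ Φ := by
  obtain ⟨g1, rfl⟩ := hG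
  obtain ⟨d1, rfl⟩ := hD
  have hπ0 : π ≠ 0 := hπ.ne_zero
  have hΦ : π ∣ Φ := by
    have h1 : π ∣ c * Φ ^ 5 := by
      rw [← h]; exact ⟨π ^ 2 * g1 ^ 3 - k * π * d1 ^ 2, by ring⟩
    rcases hπ.dvd_or_dvd h1 with h2 | h2
    · exact absurd h2 hc
    · exact hπ.dvd_of_dvd_pow h2
  obtain ⟨φ1, rfl⟩ := hΦ
  -- cancel `π^2`
  have e1 : π * g1 ^ 3 - k * d1 ^ 2 = c * π ^ 3 * φ1 ^ 5 := by
    have h1 : π ^ 2 * (π * g1 ^ 3 - k * d1 ^ 2) = π ^ 2 * (c * π ^ 3 * φ1 ^ 5) := by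
      linear_combination h
    exact mul_left_cancel₀ (pow_ne_zero 2 hπ0) h1
  have hd1 : π ∣ d1 := by
    have h1 : π ∣ k * d1 ^ 2 := ⟨g1 ^ 3 - c * π ^ 2 * φ1 ^ 5, by linear_combination -e1⟩
    rcases hπ.dvd_or_dvd h1 with h2 | h2
    · exact absurd h2 hk
    · exact hπ.dvd_of_dvd_pow h2
  obtain ⟨d2, rfl⟩ := hd1
  have e2 : g1 ^ 3 - k * π * d2 ^ 2 = c * π ^ 2 * φ1 ^ 5 := by
    have h1 : π * (g1 ^ 3 - k * π * d2 ^ 2) = π * (c * π ^ 2 * φ1 ^ 5) := by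
      linear_combination e1
    exact mul_left_cancel₀ hπ0 h1
  have hg1 : π ∣ g1 := by
    have h1 : π ∣ g1 ^ 3 := ⟨k * d2 ^ 2 + c * π * φ1 ^ 5, by linear_combination e2⟩
    exact hπ.dvd_of_dvd_pow h1
  obtain ⟨g2, rfl⟩ := hg1
  have e3 : π ^ 2 * g2 ^ 3 - k * d2 ^ 2 = c * π * φ1 ^ 5 := by
    have h1 : π * (π ^ 2 * g2 ^ 3 - k * d2 ^ 2) = π * (c * π * φ1 ^ 5) := by
      linear_combination e2
    exact mul_left_cancel₀ hπ0 h1
  have hd2 : π ∣ d2 := by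
    have h1 : π ∣ k * d2 ^ 2 := ⟨π * g2 ^ 3 - c * φ1 ^ 5, by linear_combination -e3⟩
    rcases hπ.dvd_or_dvd h1 with h2 | h2
    · exact absurd h2 hk
    · exact hπ.dvd_of_dvd_pow h2
  obtain ⟨d3, rfl⟩ := hd2
  have e4 : π * g2 ^ 3 - k * π * d3 ^ 2 = c * φ1 ^ 5 := by
    have h1 : π * (π * g2 ^ 3 - k * π * d3 ^ 2) = π * (c * φ1 ^ 5) := by
      linear_combination e3
    exact mul_left_cancel₀ hπ0 h1
  have hφ1 : π ∣ φ1 := by
    have h1 : π ∣ c * φ1 ^ 5 := ⟨g2 ^ 3 - k * d3 ^ 2, by linear_combination -e4⟩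
    rcases hπ.dvd_or_dvd h1 with h2 | h2
    · exact absurd h2 hc
    · exact hπ.dvd_of_dvd_pow h2
  obtain ⟨φ2, rfl⟩ := hφ1
  exact ⟨φ2, by ring⟩

/-- Core of K5: over a field of characteristic zero there are no polynomials `G, D, Y` with
`G^2 = 12 Y D` and `G^3 - 54 D^2 = c Φ^5` when `Φ` is squarefree and non-constant, `c ≠ 0`. -/
theorem no_GD {F : Type*} [Field F] [CharZero F] (Φ G D Y : F[X]) (c : F) (hc : c ≠ 0)
    (hsq : Squarefree Φ) (hdeg : 0 < Φ.natDegree)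
    (h1 : G ^ 2 = 12 * Y * D) (h2 : G ^ 3 - 54 * D ^ 2 = C c * Φ ^ 5) : False := by
  have hΦ0 : Φ ≠ 0 := by
    rintro rfl; simp at hdeg
  have h54 : IsUnit (54 : F[X]) := by
    have : (54 : F[X]) = C (54 : F) := (map_ofNat (C : F →+* F[X]) 54).symm
    rw [this]; exact (isUnit_C).2 (IsUnit.mk0 _ (by norm_num))
  have hCc : IsUnit (C c : F[X]) := (isUnit_C).2 (IsUnit.mk0 _ hc)
  -- `G` and `D` are coprime
  have hcop : IsCoprime G D := by
    apply isCoprime_of_prime_dvd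
    · rintro ⟨rfl, rfl⟩
      have : C c * Φ ^ 5 = 0 := by rw [← h2]; ring
      rcases mul_eq_zero.1 this with h | h
      · exact hc (C_eq_zero.1 h)
      · exact hΦ0 (pow_eq_zero_iff (by norm_num) |>.1 h)
    · intro z hz hzG hzD
      have hz2 : z ^ 2 ∣ Φ :=
        sq_dvd_of_common_prime hz (fun h => hz.not_isUnit (isUnit_of_dvd_unit h h54))
          (fun h => hz.not_isUnit (isUnit_of_dvd_unit h hCc)) hzG hzD h2
      exact hz.not_isUnit (hsq z (by rwa [← sq]))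
  -- hence `D` is a unit
  have hDunit : IsUnit D := by
    have h3 : IsCoprime D (G ^ 2) := hcop.symm.pow_right
    exact h3.isUnit_of_dvd' dvd_rfl ⟨12 * Y, by rw [h1]; ring⟩
  obtain ⟨d0, hd0, rfl⟩ := Polynomial.isUnit_iff.1 hDunit
  have hd0' : d0 ≠ 0 := hd0.ne_zero
  -- `G^3 = c Φ^5 + 54 d0^2`
  have h3 : G ^ 3 = C c * Φ ^ 5 + C (54 * d0 ^ 2) := by
    have : (C (54 * d0 ^ 2) : F[X]) = 54 * (C d0) ^ 2 := by
      rw [C_mul, C_pow, map_ofNat (C : F →+* F[X]) 54]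
    rw [this]; linear_combination h2
  have hdegΦ5 : (C c * Φ ^ 5).natDegree = 5 * Φ.natDegree := by
    rw [natDegree_C_mul hc, natDegree_pow]
  have hdegG : 3 * G.natDegree = 5 * Φ.natDegree := by
    have := congrArg natDegree h3
    rw [natDegree_pow, natDegree_add_C, hdegΦ5] at this
    exact this
  -- `Φ` and `G` are coprime
  have hcop2 : IsCoprime Φ G := by
    apply isCoprime_of_prime_dvd
    · rintro ⟨rfl, -⟩; exact hΦ0 rfl
    · intro z hz hzΦ hzG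
      have : z ∣ C (54 * d0 ^ 2) := by
        have e : (C (54 * d0 ^ 2) : F[X]) = G ^ 3 - C c * Φ ^ 5 := by rw [h3]; ring
        rw [e]
        exact dvd_sub (dvd_pow hzG (by norm_num)) (dvd_mul_of_dvd_right (dvd_pow hzΦ (by norm_num)) _)
      exact hz.not_isUnit (isUnit_of_dvd_unit this
        ((isUnit_C).2 (IsUnit.mk0 _ (mul_ne_zero (by norm_num) (pow_ne_zero 2 hd0')))))
  -- differentiate
  have hder : C 3 * G ^ 2 * derivative G = C c * (C 5 * Φ ^ 4 * derivative Φ) := by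
    have := congrArg derivative h3
    simp only [derivative_pow, derivative_add, derivative_C, derivative_mul, add_zero, zero_mul,
      zero_add] at this
    simpa using this
  have hdvd : Φ ^ 4 ∣ derivative G * (C 3 * G ^ 2) := by
    refine ⟨C c * C 5 * derivative Φ, ?_⟩
    linear_combination hder
  have hcop3 : IsCoprime (Φ ^ 4) (C 3 * G ^ 2) := by
    have h3u : IsUnit (C (3 : F) : F[X]) := (isUnit_C).2 (IsUnit.mk0 _ (by norm_num))
    have ha : IsCoprime (Φ ^ 4) (G ^ 2) := IsCoprime.pow hcop2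
    exact (isCoprime_mul_unit_left_right h3u _ _).2 ha
  have hdvd2 : Φ ^ 4 ∣ derivative G := hcop3.dvd_of_dvd_mul_right hdvd
  have hGdeg : G.natDegree ≠ 0 := by
    intro h0; rw [h0] at hdegG; omega
  by_cases hG' : derivative G = 0
  · exact hGdeg (Polynomial.derivative_eq_zero.1 hG')
  · have hle : (Φ ^ 4).natDegree ≤ (derivative G).natDegree := natDegree_le_of_dvd hdvd2 hG'
    rw [natDegree_pow] at hle
    have hlt : (derivative G).natDegree < G.natDegree := natDegree_derivative_lt hGdeg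
    omega



/-! ### Ring-hom compatibility of the explicit polynomials -/

section maps

variable {R S : Type*} [CommRing R] [CommRing S] (φ : R →+* S)

theorem map_kH (a b : R) : φ (kH a b) = kH (φ a) (φ b) := by
  simp only [kH, map_add, map_sub, map_mul, map_pow, map_neg, map_ofNat]

theorem map_kT (a b : R) : φ (kT a b) = kT (φ a) (φ b) := by
  simp only [kT, map_add, map_sub, map_mul, map_pow, map_ofNat]

theorem map_kf (a b : R) : φ (kf a b) = kf (φ a) (φ b) := by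
  simp only [kf, map_add, map_sub, map_mul, map_pow, map_ofNat]

theorem map_kw1 (a b : R) : φ (kw1 a b) = kw1 (φ a) (φ b) := by
  simp only [kw1, map_add, map_sub, map_mul, map_pow, map_ofNat]

theorem map_kw2 (a b : R) : φ (kw2 a b) = kw2 (φ a) (φ b) := by
  simp only [kw2, map_add, map_sub, map_mul, map_pow, map_neg, map_ofNat]

theorem map_kPhi (a b c : R) : φ (kPhi a b c) = kPhi (φ a) (φ b) (φ c) := by
  simp only [kPhi, map_add, map_sub, map_mul, map_pow, map_ofNat, map_one]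

theorem map_rsA (a b c : R) : φ (rsA a b c) = rsA (φ a) (φ b) (φ c) := by
  simp only [rsA, rsA1, rsAc1, rsAc2, rsAc3, rsAc4, rsAc5, rsAc6, rsAc7, rsAc8, rsAc9, rsAc10,
    rsAc11, rsAc12, rsAc13, rsAc14, rsAc15, rsAc16, rsAc17, rsAc18, rsAc19, rsAc20,
    map_add, map_sub, map_mul, map_pow, map_neg, map_ofNat]

theorem map_rsB (a b c : R) : φ (rsB a b c) = rsB (φ a) (φ b) (φ c) := by
  simp only [rsB, rsB1, rsBc1, rsBc2, rsBc3, rsBc4, rsBc5, rsBc6, rsBc7, rsBc8, rsBc9, rsBc10,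
    rsBc11, rsBc12, rsBc13, rsBc14, rsBc15, rsBc16, rsBc17, rsBc18, rsBc19, rsBc20,
    rsBc21, rsBc22, rsBc23, rsBc24, rsBc25, rsBc26, rsBc27, rsBc28, rsBc29, rsBc30,
    map_add, map_sub, map_mul, map_pow, map_neg, map_ofNat]

end maps

/-! ### Elementary facts on Klein's form `f` -/

section klein

variable {R : Type*} [CommRing R]

/-- Euler's relation in the form `det(u, w(u)) = -12 f(u)`. -/
theorem euler_kf (x y : R) : x * kw2 x y - y * kw1 x y = -12 * kf x y := by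
  unfold kw1 kw2 kf; ring

/-- The derivative of `kf (ℓ₁, ℓ₂)` for polynomials `ℓ₁, ℓ₂`. -/
theorem derivative_kf (l1 l2 : R[X]) :
    derivative (kf l1 l2) = derivative l2 * kw1 l1 l2 - derivative l1 * kw2 l1 l2 := by
  unfold kf kw1 kw2
  simp only [derivative_mul, derivative_pow, derivative_add, derivative_sub, derivative_ofNat,
    Nat.cast_ofNat, map_ofNat, zero_mul, zero_add]
  ring

end klein

/-- `kw1` and `kw2` have no common zero except the origin (characteristic zero). -/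
theorem kw_ne_zero {K : Type*} [Field K] [CharZero K] (x y : K) (hxy : ¬ (x = 0 ∧ y = 0)) :
    ¬ (kw1 x y = 0 ∧ kw2 x y = 0) := by
  rintro ⟨h1, h2⟩
  unfold kw1 at h1
  unfold kw2 at h2
  by_cases hx : x = 0
  · subst hx
    have : y ^ 11 = 0 := by linear_combination h2
    exact hxy ⟨rfl, pow_eq_zero_iff (by norm_num) |>.1 this⟩
  by_cases hy : y = 0
  · subst hy
    have : x ^ 11 = 0 := by linear_combination h1
    exact hx (pow_eq_zero_iff (by norm_num) |>.1 this)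
  have e1 : (x ^ 5) ^ 2 + 66 * x ^ 5 * y ^ 5 - 11 * (y ^ 5) ^ 2 = 0 := by
    have : x * ((x ^ 5) ^ 2 + 66 * x ^ 5 * y ^ 5 - 11 * (y ^ 5) ^ 2) = 0 := by
      linear_combination h1
    exact (mul_eq_zero.1 this).resolve_left hx
  have e2 : 11 * (x ^ 5) ^ 2 + 66 * x ^ 5 * y ^ 5 - (y ^ 5) ^ 2 = 0 := by
    have : y * (11 * (x ^ 5) ^ 2 + 66 * x ^ 5 * y ^ 5 - (y ^ 5) ^ 2) = 0 := by
      linear_combination -h2
    exact (mul_eq_zero.1 this).resolve_left hy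
  have h3 : 7500 * (y ^ 5) ^ 3 = 0 := by
    linear_combination (726 * y ^ 5) * (e2 - e1) - (11 * x ^ 5 + 2 * y ^ 5) * (11 * e1 - e2)
  have h4 : (y ^ 5) ^ 3 = 0 := by
    rcases mul_eq_zero.1 h3 with h | h
    · norm_num at h
    · exact h
  exact hy (pow_eq_zero_iff (by norm_num) |>.1 (pow_eq_zero_iff (by norm_num) |>.1 h4))



/-- Klein's relation (small `ring` identity). -/
theorem klein_rel' {R : Type*} [CommRing R] (u1 u2 : R) :
    kT (u1 ^ 5) (u2 ^ 5) ^ 2 + kH (u1 ^ 5) (u2 ^ 5) ^ 3 = 1728 * kf u1 u2 ^ 5 := by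
  unfold kT kH kf; ring

section closed

/-- `eval` commutes with `kf`. -/
theorem eval_kf {K : Type} [Field K] (a : K) (l1 l2 : K[X]) : eval a (kf l1 l2) = kf (eval a l1) (eval a l2) :=
  map_kf (evalRingHom a) l1 l2

theorem eval_kw1 {K : Type} [Field K] (a : K) (l1 l2 : K[X]) : eval a (kw1 l1 l2) = kw1 (eval a l1) (eval a l2) :=
  map_kw1 (evalRingHom a) l1 l2

theorem eval_kw2 {K : Type} [Field K] (a : K) (l1 l2 : K[X]) : eval a (kw2 l1 l2) = kw2 (eval a l1) (eval a l2) :=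
  map_kw2 (evalRingHom a) l1 l2

/-- The polynomial identity `kf (v + X w(v)) = kf v * kPhi (kH v) (kT v) X` in `K[X]`. -/
theorem kf_line {K : Type} [Field K]
    (hkf : ∀ (R : Type) [CommRing R] (u1 u2 s : R),
      kf (u1 + s * kw1 u1 u2) (u2 + s * kw2 u1 u2)
        = kf u1 u2 * kPhi (kH (u1 ^ 5) (u2 ^ 5)) (kT (u1 ^ 5) (u2 ^ 5)) s)
    (v1 v2 : K) :
    kf (C v1 + X * C (kw1 v1 v2)) (C v2 + X * C (kw2 v1 v2))
      = C (kf v1 v2) * kPhi (C (kH (v1 ^ 5) (v2 ^ 5))) (C (kT (v1 ^ 5) (v2 ^ 5))) (X : K[X]) := by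
  have h := hkf K[X] (C v1) (C v2) X
  have e1 : kw1 (C v1) (C v2) = (C (kw1 v1 v2) : K[X]) := (map_kw1 C v1 v2).symm
  have e2 : kw2 (C v1) (C v2) = (C (kw2 v1 v2) : K[X]) := (map_kw2 C v1 v2).symm
  have e3 : kf (C v1) (C v2) = (C (kf v1 v2) : K[X]) := (map_kf C v1 v2).symm
  have e4 : kH ((C v1) ^ 5) ((C v2) ^ 5) = (C (kH (v1 ^ 5) (v2 ^ 5)) : K[X]) := by
    rw [map_kH C, map_pow, map_pow]
  have e5 : kT ((C v1) ^ 5) ((C v2) ^ 5) = (C (kT (v1 ^ 5) (v2 ^ 5)) : K[X]) := by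
    rw [map_kT C, map_pow, map_pow]
  rw [e1, e2, e3, e4, e5] at h
  exact h

/-- `kPhi (kH v) (kT v) X` is separable when `kf v ≠ 0`. -/
theorem kPhi_separable {K : Type} [Field K] [CharZero K] [IsAlgClosed K]
    (hkf : ∀ (R : Type) [CommRing R] (u1 u2 s : R),
      kf (u1 + s * kw1 u1 u2) (u2 + s * kw2 u1 u2)
        = kf u1 u2 * kPhi (kH (u1 ^ 5) (u2 ^ 5)) (kT (u1 ^ 5) (u2 ^ 5)) s)
    (v1 v2 : K) (hv : kf v1 v2 ≠ 0) :
    (kPhi (C (kH (v1 ^ 5) (v2 ^ 5))) (C (kT (v1 ^ 5) (v2 ^ 5))) (X : K[X])).Separable := by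
  have hP := kf_line hkf v1 v2
  set w1 := kw1 v1 v2 with hw1
  set w2 := kw2 v1 v2 with hw2
  set Φ : K[X] := kPhi (C (kH (v1 ^ 5) (v2 ^ 5))) (C (kT (v1 ^ 5) (v2 ^ 5))) X with hΦ
  rw [separable_def, Polynomial.isCoprime_iff_aeval_ne_zero_of_isAlgClosed (k := K) K]
  intro a
  by_contra hcon
  push Not at hcon
  obtain ⟨ha1, ha2⟩ := hcon
  rw [coe_aeval_eq_eval] at ha1 ha2
  set x := v1 + a * w1 with hx
  set y := v2 + a * w2 with hy
  have hx' : eval a (C v1 + X * C w1) = x := by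
    rw [eval_add, eval_mul, eval_C, eval_C, eval_X]
  have hy' : eval a (C v2 + X * C w2) = y := by
    rw [eval_add, eval_mul, eval_C, eval_C, eval_X]
  have e0 : kf x y = 0 := by
    have h := congrArg (eval a) hP
    rw [eval_kf, hx', hy', eval_mul, eval_C, ha1, mul_zero] at h
    exact h
  have e1 : w2 * kw1 x y - w1 * kw2 x y = 0 := by
    have h := congrArg (fun q => eval a (derivative q)) hP
    simp only [derivative_kf, derivative_mul, derivative_C, zero_mul, zero_add, derivative_add,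
      derivative_X, one_mul, eval_sub, eval_mul, eval_C, eval_kw1, eval_kw2, hx', hy', ha2,
      mul_zero, add_zero] at h
    exact h
  have hE : x * kw2 x y - y * kw1 x y = 0 := by rw [euler_kf, e0, mul_zero]
  have hdet : x * w2 - y * w1 = -12 * kf v1 v2 := by
    rw [← euler_kf v1 v2, hx, hy]; ring
  have hdet0 : x * w2 - y * w1 ≠ 0 := by
    rw [hdet]; exact mul_ne_zero (by norm_num) hv
  have hA : kw1 x y = 0 := by
    have : (x * w2 - y * w1) * kw1 x y = 0 := by linear_combination x * e1 + w1 * hE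
    exact (mul_eq_zero.1 this).resolve_left hdet0
  have hB : kw2 x y = 0 := by
    have : (x * w2 - y * w1) * kw2 x y = 0 := by linear_combination y * e1 + w2 * hE
    exact (mul_eq_zero.1 this).resolve_left hdet0
  refine kw_ne_zero x y ?_ ⟨hA, hB⟩
  rintro ⟨hx0, hy0⟩
  apply hdet0
  rw [hx0, hy0]; ring

/-- `kPhi (kH v) (kT v) X` is not constant when `kf v ≠ 0`. -/
theorem kPhi_natDegree_pos {K : Type} [Field K] [CharZero K]
    (hkf : ∀ (R : Type) [CommRing R] (u1 u2 s : R),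
      kf (u1 + s * kw1 u1 u2) (u2 + s * kw2 u1 u2)
        = kf u1 u2 * kPhi (kH (u1 ^ 5) (u2 ^ 5)) (kT (u1 ^ 5) (u2 ^ 5)) s)
    (v1 v2 : K) (hv : kf v1 v2 ≠ 0) :
    0 < (kPhi (C (kH (v1 ^ 5) (v2 ^ 5))) (C (kT (v1 ^ 5) (v2 ^ 5))) (X : K[X])).natDegree := by
  set w1 := kw1 v1 v2 with hw1
  set w2 := kw2 v1 v2 with hw2
  set Φ : K[X] := kPhi (C (kH (v1 ^ 5) (v2 ^ 5))) (C (kT (v1 ^ 5) (v2 ^ 5))) X with hΦ
  have hev : ∀ a : K, eval a Φ = kPhi (kH (v1 ^ 5) (v2 ^ 5)) (kT (v1 ^ 5) (v2 ^ 5)) a := by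
    intro a
    have := map_kPhi (evalRingHom a) (C (kH (v1 ^ 5) (v2 ^ 5))) (C (kT (v1 ^ 5) (v2 ^ 5))) X
    simpa using this
  have h0 : eval 0 Φ = 1 := by
    rw [hev]; simp [kPhi]
  have hdet : v1 * w2 - v2 * w1 = -12 * kf v1 v2 := euler_kf v1 v2
  have hroot : ∃ a : K, eval a Φ = 0 := by
    by_cases h1 : w1 = 0
    · have h2 : w2 ≠ 0 := by
        rintro h2
        rw [h1, h2] at hdet
        have : (-12 : K) * kf v1 v2 = 0 := by rw [← hdet]; ring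
        rcases mul_eq_zero.1 this with h | h
        · norm_num at h
        · exact hv h
      refine ⟨-v2 / w2, ?_⟩
      have h3 := hkf K v1 v2 (-v2 / w2)
      have h4 : v2 + -v2 / w2 * kw2 v1 v2 = 0 := by
        rw [← hw2]; field_simp; ring
      rw [h4] at h3
      have h5 : kf (v1 + -v2 / w2 * kw1 v1 v2) 0 = 0 := by simp [kf]
      rw [h5] at h3
      rw [hev]
      exact (mul_eq_zero.1 h3.symm).resolve_left hv
    · refine ⟨-v1 / w1, ?_⟩
      have h3 := hkf K v1 v2 (-v1 / w1)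
      have h4 : v1 + -v1 / w1 * kw1 v1 v2 = 0 := by
        rw [← hw1]; field_simp; ring
      rw [h4] at h3
      have h5 : kf 0 (v2 + -v1 / w1 * kw2 v1 v2) = 0 := by simp [kf]
      rw [h5] at h3
      rw [hev]
      exact (mul_eq_zero.1 h3.symm).resolve_left hv
  obtain ⟨a, ha⟩ := hroot
  by_contra hdeg
  have hdeg0 : Φ.natDegree = 0 := by omega
  rw [eq_C_of_natDegree_eq_zero hdeg0] at h0 ha
  rw [eval_C] at h0 ha
  rw [h0] at ha
  exact one_ne_zero ha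

end closed

/-- **K5**: the quartic `ψ₃` of the family `E_s` has no polynomial root.  The three ALG interface
facts `kf_spec`, `rs_disc`, `exists_klein_param` are hypotheses. -/
theorem no_poly_root
    (hkf : ∀ (R : Type) [CommRing R] (u1 u2 s : R),
      kf (u1 + s * kw1 u1 u2) (u2 + s * kw2 u1 u2)
        = kf u1 u2 * kPhi (kH (u1 ^ 5) (u2 ^ 5)) (kT (u1 ^ 5) (u2 ^ 5)) s)
    (hdisc : ∀ (R : Type) [CommRing R] (H T s : R),
      rsA H T s ^ 3 + rsB H T s ^ 2 = (H ^ 3 + T ^ 2) * kPhi H T s ^ 5)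
    (hparam : ∀ (K : Type) [Field K] [IsAlgClosed K], (2 : K) ≠ 0 → (3 : K) ≠ 0 → (5 : K) ≠ 0 →
      ∀ H0 T0 : K, H0 ^ 3 + T0 ^ 2 ≠ 0 →
        ∃ u1 u2 : K, kH (u1 ^ 5) (u2 ^ 5) = H0 ∧ kT (u1 ^ 5) (u2 ^ 5) = T0)
    (H0 T0 : ℚ) (h0 : H0 ^ 3 + T0 ^ 2 ≠ 0) (Y : ℚ[X]) :
    3 * Y ^ 4 + 6 * (27 * rsA (C H0) (C T0) X) * Y ^ 2 + 12 * (54 * rsB (C H0) (C T0) X) * Y
      - (27 * rsA (C H0) (C T0) X) ^ 2 ≠ 0 := by
  intro hψ
  let K := AlgebraicClosure ℚ
  let φ : ℚ →+* K := algebraMap ℚ K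
  have hφ : Function.Injective φ := φ.injective
  have h0' : (φ H0) ^ 3 + (φ T0) ^ 2 ≠ 0 := by
    rw [← map_pow, ← map_pow, ← map_add]
    exact fun h => h0 (hφ (by rw [h, map_zero]))
  obtain ⟨v1, v2, hH, hT⟩ := hparam K (by norm_num) (by norm_num) (by norm_num) (φ H0) (φ T0) h0'
  have hv : kf v1 v2 ≠ 0 := by
    intro h
    have := klein_rel' v1 v2
    rw [hH, hT, h] at this
    apply h0'
    linear_combination this
  set Φ : ℚ[X] := kPhi (C H0) (C T0) X with hΦ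
  have hmap : Φ.map φ = kPhi (C (kH (v1 ^ 5) (v2 ^ 5))) (C (kT (v1 ^ 5) (v2 ^ 5))) (X : K[X]) := by
    have := map_kPhi (mapRingHom φ) (C H0) (C T0) X
    rw [coe_mapRingHom, map_C, map_C, map_X] at this
    rw [hH, hT]; exact this
  have hsep : Φ.Separable := by
    rw [← separable_map φ, hmap]
    exact kPhi_separable hkf v1 v2 hv
  have hdeg : 0 < Φ.natDegree := by
    rw [← natDegree_map φ, hmap]
    exact kPhi_natDegree_pos hkf v1 v2 hv
  have hd := hdisc ℚ[X] (C H0) (C T0) X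
  have hc : (-157464 * (H0 ^ 3 + T0 ^ 2) : ℚ) ≠ 0 := mul_ne_zero (by norm_num) h0
  refine no_GD Φ (3 * Y ^ 2 + 27 * rsA (C H0) (C T0) X)
    (Y ^ 3 + 27 * rsA (C H0) (C T0) X * Y + 54 * rsB (C H0) (C T0) X) Y
    (-157464 * (H0 ^ 3 + T0 ^ 2)) hc hsep.squarefree hdeg ?_ ?_
  · linear_combination (-1 : ℚ[X]) * hψ
  · have hC : (C (-157464 * (H0 ^ 3 + T0 ^ 2)) : ℚ[X]) = -157464 * ((C H0) ^ 3 + (C T0) ^ 2) := by
      simp only [C_mul, C_add, C_pow, C_neg, map_ofNat]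
    rw [hC]
    linear_combination (-157464 : ℚ[X]) * hd
      - (9 * (3 * Y ^ 2 + 27 * rsA (C H0) (C T0) X) - 18 * Y ^ 2) * hψ



/-- Evaluation form of `no_poly_root`: for a fixed polynomial `Y ∈ ℚ[s]`, only finitely many rational
parameters `s` have `Y(s)` as a root of `ψ₃(E_s)`. -/
theorem finite_param_of_poly
    (hkf : ∀ (R : Type) [CommRing R] (u1 u2 s : R),
      kf (u1 + s * kw1 u1 u2) (u2 + s * kw2 u1 u2)
        = kf u1 u2 * kPhi (kH (u1 ^ 5) (u2 ^ 5)) (kT (u1 ^ 5) (u2 ^ 5)) s)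
    (hdisc : ∀ (R : Type) [CommRing R] (H T s : R),
      rsA H T s ^ 3 + rsB H T s ^ 2 = (H ^ 3 + T ^ 2) * kPhi H T s ^ 5)
    (hparam : ∀ (K : Type) [Field K] [IsAlgClosed K], (2 : K) ≠ 0 → (3 : K) ≠ 0 → (5 : K) ≠ 0 →
      ∀ H0 T0 : K, H0 ^ 3 + T0 ^ 2 ≠ 0 →
        ∃ u1 u2 : K, kH (u1 ^ 5) (u2 ^ 5) = H0 ∧ kT (u1 ^ 5) (u2 ^ 5) = T0)
    (H0 T0 : ℚ) (h0 : H0 ^ 3 + T0 ^ 2 ≠ 0) (Y : ℚ[X]) :
    {s : ℚ | 3 * (Y.eval s) ^ 4 + 6 * (27 * rsA H0 T0 s) * (Y.eval s) ^ 2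
        + 12 * (54 * rsB H0 T0 s) * (Y.eval s) - (27 * rsA H0 T0 s) ^ 2 = 0}.Finite := by
  have hne := no_poly_root hkf hdisc hparam H0 T0 h0 Y
  refine (Polynomial.finite_setOfPred_isRoot hne).subset ?_
  intro s hs
  have eA : eval s (rsA (C H0) (C T0) X) = rsA H0 T0 s := by
    have := map_rsA (evalRingHom s) (C H0) (C T0) X
    simpa using this
  have eB : eval s (rsB (C H0) (C T0) X) = rsB H0 T0 s := by
    have := map_rsB (evalRingHom s) (C H0) (C T0) X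
    simpa using this
  simp only [Set.mem_ofPred_eq, IsRoot.def, eval_sub, eval_add, eval_mul, eval_pow, eval_ofNat,
    eA, eB]
  exact hs

/-- Integer-parameter form, matching the IRR interface statement (there `(rsA H0 T0 s : ℚ)`
elaborates to `rsA (H0 : ℚ) (T0 : ℚ) (s : ℚ)`). -/
theorem finite_int_param_of_poly
    (hkf : ∀ (R : Type) [CommRing R] (u1 u2 s : R),
      kf (u1 + s * kw1 u1 u2) (u2 + s * kw2 u1 u2)
        = kf u1 u2 * kPhi (kH (u1 ^ 5) (u2 ^ 5)) (kT (u1 ^ 5) (u2 ^ 5)) s)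
    (hdisc : ∀ (R : Type) [CommRing R] (H T s : R),
      rsA H T s ^ 3 + rsB H T s ^ 2 = (H ^ 3 + T ^ 2) * kPhi H T s ^ 5)
    (hparam : ∀ (K : Type) [Field K] [IsAlgClosed K], (2 : K) ≠ 0 → (3 : K) ≠ 0 → (5 : K) ≠ 0 →
      ∀ H0 T0 : K, H0 ^ 3 + T0 ^ 2 ≠ 0 →
        ∃ u1 u2 : K, kH (u1 ^ 5) (u2 ^ 5) = H0 ∧ kT (u1 ^ 5) (u2 ^ 5) = T0)
    (H0 T0 : ℤ) (h0 : H0 ^ 3 + T0 ^ 2 ≠ 0) (Y : ℚ[X]) :
    {s : ℤ | 3 * (Y.eval (s : ℚ)) ^ 4 + 6 * (27 * (rsA H0 T0 s : ℚ)) * (Y.eval (s : ℚ)) ^ 2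
        + 12 * (54 * (rsB H0 T0 s : ℚ)) * (Y.eval (s : ℚ)) - (27 * (rsA H0 T0 s : ℚ)) ^ 2 = 0}.Finite := by
  have h0' : (H0 : ℚ) ^ 3 + (T0 : ℚ) ^ 2 ≠ 0 := by exact_mod_cast h0
  have hfin := finite_param_of_poly hkf hdisc hparam (H0 : ℚ) (T0 : ℚ) h0' Y
  refine (hfin.preimage (f := fun s : ℤ => (s : ℚ)) (fun a _ b _ h => Int.cast_injective h)).subset ?_
  intro s hs
  exact hs

end Fermat.Agent.S52.IRR.NPR8835

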