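import Mathlib
import Fermat.Agent.S52.Defs
import Fermat.Agent.S52.IRR.H8823.Isolate
import Fermat.Agent.S52.IRR.K4h9243
import Fermat.Agent.S52.IRR.NoPolyRoot8835

/-!
# S52 / IRR : assembly of the package interface theorem (helper9555)

`exists_param_no_rat_root_of` is the interface theorem `exists_param_no_rat_root` of package IRR with the
three ALG facts `kf_spec`, `rs_disc`, `exists_klein_param` as hypotheses.  It glues

* K1 + K2 `H8823.isolate` (helper8823, local isolation of the integer roots of `gh`),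
* K3 + K4 `K4h9243.exists_poly_root` (helper9243, Newton branch + rigidity, integer form),
* K5 `NPR8835.no_poly_root` (helper8835, no polynomial root).

Dictionary: `gh (27 H) (54 T) y = quart (81 H) (729 T) y = 27 * psi3 (y / 3)`.
-/

set_option autoImplicit false

namespace Fermat.Agent.S52.IRR.Asm9555

open Polynomial

/-- an integer root of `gh a b` is simple when `4 a^3 + 27 b^2 ≠ 0`. -/
theorem simple_root (a b r : ℤ) (hΔ : 4 * a ^ 3 + 27 * b ^ 2 ≠ 0) (hr : H8823.gh a b r = 0) :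
    r ^ 3 + 9 * a * r + 27 * b ≠ 0 := by
  intro hδ
  unfold H8823.gh at hr
  have h1 : 3 * (r ^ 2 + 3 * a) ^ 2 = 0 := by linear_combination 4 * r * hδ - hr
  have h2 : r ^ 2 + 3 * a = 0 := by
    rcases mul_eq_zero.mp h1 with h | h
    · norm_num at h
    · exact pow_eq_zero_iff (two_ne_zero) |>.mp h
  apply hΔ
  have h3 : 27 * (4 * a ^ 3 + 27 * b ^ 2) = 0 := by
    linear_combination (6 * a * r ^ 2 - 27 * b * r + 36 * a ^ 2) * h2 - (6 * a * r - 27 * b) * hδ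
  exact (mul_eq_zero.mp h3).resolve_left (by norm_num)

/-- a rational root of `psi3` of the short model `(27 A, 54 B)` (integers `A`, `B`) gives an integer
root of `gh`. -/
theorem int_root_of_rat_root (A B : ℤ) (x : ℚ)
    (hx : 3 * x ^ 4 + 6 * (27 * (A : ℚ)) * x ^ 2 + 12 * (54 * (B : ℚ)) * x - (27 * (A : ℚ)) ^ 2 = 0) :
    ∃ y : ℤ, (y : ℚ) = 3 * x ∧ H8823.gh (27 * A) (54 * B) y = 0 := by
  obtain ⟨y, hy⟩ := H8823.int_of_rat_root (27 * A) (54 * B) (3 * x)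
    (by push_cast; linear_combination 27 * hx)
  refine ⟨y, hy, ?_⟩
  have h : ((H8823.gh (27 * A) (54 * B) y : ℤ) : ℚ) = 0 := by
    unfold H8823.gh
    push_cast
    rw [hy]
    linear_combination 27 * hx
  exact_mod_cast h

/-- **Package IRR**, with the ALG facts as hypotheses. -/
theorem exists_param_no_rat_root_of
    (hkf : ∀ (R : Type) [CommRing R] (u1 u2 s : R),
      kf (u1 + s * kw1 u1 u2) (u2 + s * kw2 u1 u2)
        = kf u1 u2 * kPhi (kH (u1 ^ 5) (u2 ^ 5)) (kT (u1 ^ 5) (u2 ^ 5)) s)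
    (hdisc : ∀ (R : Type) [CommRing R] (H T s : R),
      rsA H T s ^ 3 + rsB H T s ^ 2 = (H ^ 3 + T ^ 2) * kPhi H T s ^ 5)
    (hparam : ∀ (K : Type) [Field K] [IsAlgClosed K], (2 : K) ≠ 0 → (3 : K) ≠ 0 → (5 : K) ≠ 0 →
      ∀ H0 T0 : K, H0 ^ 3 + T0 ^ 2 ≠ 0 →
        ∃ u1 u2 : K, kH (u1 ^ 5) (u2 ^ 5) = H0 ∧ kT (u1 ^ 5) (u2 ^ 5) = T0)
    (H0 T0 : ℤ) (h0 : H0 ^ 3 + T0 ^ 2 ≠ 0) (M : ℤ) (hM : M ≠ 0)
    (x0 : ℚ) (hx0 : 3 * x0 ^ 4 + 6 * (27 * (H0 : ℚ)) * x0 ^ 2 + 12 * (54 * (T0 : ℚ)) * x0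
      - (27 * (H0 : ℚ)) ^ 2 = 0) :
    ∃ s : ℤ, M ∣ s ∧ s ≠ 0 ∧ ∀ x : ℚ,
      3 * x ^ 4 + 6 * (27 * (rsA H0 T0 s : ℚ)) * x ^ 2 + 12 * (54 * (rsB H0 T0 s : ℚ)) * x
        - (27 * (rsA H0 T0 s : ℚ)) ^ 2 ≠ 0 := by
  by_contra hcon
  push Not at hcon
  -- the member `s = 0`
  have hΔ : 4 * (27 * H0) ^ 3 + 27 * (54 * T0) ^ 2 ≠ 0 := by
    intro h
    apply h0
    have h' : 78732 * (H0 ^ 3 + T0 ^ 2) = 0 := by linear_combination h
    exact (mul_eq_zero.mp h').resolve_left (by norm_num)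
  obtain ⟨r, -, hgr⟩ := int_root_of_rat_root H0 T0 x0 hx0
  obtain ⟨p, hp, c, r', hr', hiso⟩ := H8823.isolate (27 * H0) (54 * T0) r hΔ hgr
  -- the family as polynomials in `s`
  set a : ℤ[X] := 81 * rsA (C H0) (C T0) X with ha
  set b : ℤ[X] := 729 * rsB (C H0) (C T0) X with hb
  have ea : ∀ s : ℤ, a.eval s = 81 * rsA H0 T0 s := fun s => by
    have h := NPR8835.map_rsA (evalRingHom s) (C H0) (C T0) X
    simp only [coe_evalRingHom, eval_C, eval_X] at h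
    rw [ha, eval_mul, h]
    simp
  have eb : ∀ s : ℤ, b.eval s = 729 * rsB H0 T0 s := fun s => by
    have h := NPR8835.map_rsB (evalRingHom s) (C H0) (C T0) X
    simp only [coe_evalRingHom, eval_C, eval_X] at h
    rw [hb, eval_mul, h]
    simp
  have ea0 : a.eval 0 = 81 * H0 := by rw [ea]; simp [rsA]
  have eb0 : b.eval 0 = 729 * T0 := by rw [eb]; simp [rsB]
  have hq0 : ∀ y : ℤ, K4h9243.quart (a.eval 0) (b.eval 0) y = H8823.gh (27 * H0) (54 * T0) y := by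
    intro y
    rw [ea0, eb0]
    unfold K4h9243.quart H8823.gh
    ring
  have hqs : ∀ s y : ℤ, K4h9243.quart (a.eval s) (b.eval s) y
      = H8823.gh (27 * rsA H0 T0 s) (54 * rsB H0 T0 s) y := by
    intro s y
    rw [ea, eb]
    unfold K4h9243.quart H8823.gh
    ring
  have hroot : ∀ ρ ∈ ({r, r'} : Finset ℤ), H8823.gh (27 * H0) (54 * T0) ρ = 0 := by
    intro ρ hρ
    rcases Finset.mem_insert.mp hρ with rfl | hρ
    · exact hgr
    · rw [Finset.mem_singleton.mp hρ]; exact hr'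
  obtain ⟨d, hd, P, hP⟩ := K4h9243.exists_poly_root a b p hp M hM {r, r'}
    (fun ρ hρ => by rw [hq0]; exact hroot ρ hρ)
    (fun ρ hρ => by
      rw [ea0, eb0]
      have h := simple_root (27 * H0) (54 * T0) ρ hΔ (hroot ρ hρ)
      intro h'
      apply h
      linear_combination h')
    (fun n => ⟨4 * n + c, fun y hy => by
      rw [hq0] at hy
      rcases hiso y n hy with h | h
      · exact ⟨r, by simp, h⟩
      · exact ⟨r', by simp, h⟩⟩)
    (fun k => by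
      have hs : M * (p : ℤ) ^ k ≠ 0 :=
        mul_ne_zero hM (pow_ne_zero _ (by exact_mod_cast hp.ne_zero))
      obtain ⟨x, hx⟩ := hcon (M * (p : ℤ) ^ k) (Dvd.intro _ rfl) hs
      have h1 : rsA (H0 : ℚ) (T0 : ℚ) ((M * (p : ℤ) ^ k : ℤ) : ℚ)
          = ((rsA H0 T0 (M * (p : ℤ) ^ k) : ℤ) : ℚ) := by
        have h := NPR8835.map_rsA (Int.castRingHom ℚ) H0 T0 (M * (p : ℤ) ^ k)
        simpa using h.symm
      have h2 : rsB (H0 : ℚ) (T0 : ℚ) ((M * (p : ℤ) ^ k : ℤ) : ℚ)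
          = ((rsB H0 T0 (M * (p : ℤ) ^ k) : ℤ) : ℚ) := by
        have h := NPR8835.map_rsB (Int.castRingHom ℚ) H0 T0 (M * (p : ℤ) ^ k)
        simpa using h.symm
      rw [h1, h2] at hx
      obtain ⟨y, -, hy⟩ := int_root_of_rat_root _ _ x hx
      exact ⟨y, by rw [hqs]; exact hy⟩)
  -- the polynomial root contradicts K5
  set φ : ℤ →+* ℚ := Int.castRingHom ℚ with hφ
  have hd' : (3 * (d : ℚ)) ≠ 0 := mul_ne_zero (by norm_num) (Int.cast_ne_zero.mpr hd)
  set Y : ℚ[X] := C ((3 * (d : ℚ))⁻¹) * P.map φ with hY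
  have hPY : P.map φ = 3 * C (d : ℚ) * Y := by
    rw [hY, ← mul_assoc]
    have : (3 : ℚ[X]) * C (d : ℚ) * C ((3 * (d : ℚ))⁻¹) = 1 := by
      rw [show (3 : ℚ[X]) = C 3 from (map_ofNat C 3).symm, ← C_mul, ← C_mul, mul_inv_cancel₀ hd', C_1]
    rw [this, one_mul]
  have hA : a.map φ = 81 * rsA (C (H0 : ℚ)) (C (T0 : ℚ)) X := by
    have h := NPR8835.map_rsA (mapRingHom φ) (C H0) (C T0) X
    simp only [coe_mapRingHom, map_C, map_X] at h
    rw [ha, Polynomial.map_mul, h]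
    simp [hφ]
  have hB : b.map φ = 729 * rsB (C (H0 : ℚ)) (C (T0 : ℚ)) X := by
    have h := NPR8835.map_rsB (mapRingHom φ) (C H0) (C T0) X
    simp only [coe_mapRingHom, map_C, map_X] at h
    rw [hb, Polynomial.map_mul, h]
    simp [hφ]
  have hmap := congrArg (Polynomial.map φ) hP
  unfold K4h9243.quartH at hmap
  simp only [Polynomial.map_add, Polynomial.map_sub, Polynomial.map_mul, Polynomial.map_pow,
    Polynomial.map_ofNat, Polynomial.map_zero, map_C, hA, hB, hPY] at hmap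
  have hdC : (27 * (C ((φ d : ℚ)) : ℚ[X]) ^ 4) ≠ 0 := by
    refine mul_ne_zero (by norm_num) (pow_ne_zero _ ?_)
    rw [Ne, C_eq_zero]
    exact Int.cast_ne_zero.mpr hd
  have h0' : (H0 : ℚ) ^ 3 + (T0 : ℚ) ^ 2 ≠ 0 := by exact_mod_cast h0
  refine NPR8835.no_poly_root hkf hdisc hparam (H0 : ℚ) (T0 : ℚ) h0' Y ?_
  refine (mul_eq_zero.mp ?_).resolve_left hdC
  have hφd : (φ d : ℚ) = (d : ℚ) := rfl
  rw [hφd] at hmap ⊢
  linear_combination hmap

end Fermat.Agent.S52.IRR.Asm9555
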